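/-
S55 / NIT / Abs : SKELETON of the abstract Hasse norm theorem (FI + SI => HNT).
WIP file (contains `sorry`): never import it from a landed file.  Each node `AB-x` is a task; the
owner proves it in `Fermat/Agent/S55/NIT/Abs/<Name>.lean` with EXACTLY this statement.
-/
import Fermat.Agent.S55.NIT.Abs.Defs

set_option autoImplicit false

namespace Fermat.Agent.S55.NIT.Abs.WIP

open IsDedekindDomain NumberField Fermat.Agent.S55.NIT Fermat.Agent.S55.NIT.Abs

universe u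

variable {p : ℕ} {K : Type u} [Field K] [NumberField K]

/-- AB-0 (file Basic.lean). The two forms of `Cl_S = 1` agree. -/
theorem clTriv_iff_classGen (S : Finset (SI.Pl K)) :
    SI.ClTriv K S ↔ FI.ClassGen K (S : Set (FI.Pl K)) := sorry

/-- AB-1 (file KummerField.lean). The Kummer extension as a number field in the same universe. -/
theorem exists_kummer_field (hp : p.Prime) {ζ : K} (hζ : IsPrimitiveRoot ζ p) (y : Kˣ)
    (hy : ∀ z : Kˣ, z ^ p ≠ y) :
    ∃ (L : Type u) (_ : Field L) (_ : NumberField L) (_ : Algebra K L) (_ : IsGalois K L)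
      (β : L) (σ : L ≃ₐ[K] L), Module.finrank K L = p ∧ β ^ p = algebraMap K L (y : K) ∧
        ∀ τ : L ≃ₐ[K] L, τ ∈ Subgroup.zpowers σ := sorry

section L

variable {L : Type u} [Field L] [NumberField L] [Algebra K L]

/-- AB-2 (file KummerUnram.lean). `K(b^(1/p))/K` is unramified outside `p·b`. -/
theorem unramOutside_of_kummer (hp : p.Prime) (hdeg : Module.finrank K L = p)
    (b : Kˣ) (β : L) (hβ : β ^ p = algebraMap K L (b : K))
    (hb : ∀ z : Kˣ, z ^ p ≠ b) (T : Finset (SI.Pl K))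
    (hpT : ∀ v : SI.Pl K, SI.Over p K v → v ∈ T) (hbT : b ∈ SI.KS K T) :
    FI.UnramOutside K L (T : Set (FI.Pl K)) := sorry

/-- AB-3 (file CardNrm.lean). Lower bound for the order of `∏_{v∈T} Kˣ/nrm b v`. -/
theorem card_tgt_nrm_ge (hp : p.Prime) (D : SI.LocData p K) (b : Kˣ) (hc : CompatWith p K D L b)
    (T : Finset (SI.Pl K)) :
    Finite (SI.Tgt K (D.nrm b) T) ∧
      p ^ (FI.nonsplit K L T).card ≤ Nat.card (SI.Tgt K (D.nrm b) T) := sorry

/-- AB-4a (file NotOnto.lean). The first inequality in the form used by SI, for one `L`. -/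
theorem img_nrm_ne_top [IsGalois K L] (hp : p.Prime) (hp2 : p ≠ 2) (hT : FI.TateLemma.{u} p)
    {ζ : K} (hζ : IsPrimitiveRoot ζ p) (hdeg : Module.finrank K L = p)
    (σ : L ≃ₐ[K] L) (hσ : ∀ τ : L ≃ₐ[K] L, τ ∈ Subgroup.zpowers σ)
    (D : SI.LocData p K) (b : Kˣ) (β : L) (hβ : β ^ p = algebraMap K L (b : K))
    (hb : ∀ z : Kˣ, z ^ p ≠ b)
    (hc : CompatWith p K D L b) (T : Finset (SI.Pl K))
    (hpT : ∀ v : SI.Pl K, SI.Over p K v → v ∈ T) (hbT : b ∈ SI.KS K T) (hCl : SI.ClTriv K T) :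
    SI.img K (D.nrm b) T (SI.KS K T) ≠ ⊤ := sorry

end L

/-- AB-4 (file FirstIneq.lean). -/
theorem firstIneq_of_compat (hp : p.Prime) (hp2 : p ≠ 2) (hT : FI.TateLemma.{u} p)
    {ζ : K} (hζ : IsPrimitiveRoot ζ p) (D : SI.LocData p K) (hD : Compat p K D) :
    SI.FirstIneq p K D := sorry

section L

variable {L : Type u} [Field L] [NumberField L] [Algebra K L] [IsGalois K L]

/-- AB-5 (file ValNorm.lean). Valuation of the norm of a generator of a prime `w` of `L`
(outside `S`, where `L/K` is unramified). -/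
theorem val_norm_generator (hp : p.Prime) (hdeg : Module.finrank K L = p) (S : Set (FI.Pl K))
    (hur : FI.UnramOutside K L S) (w : FI.Pl L) (hw : w ∉ FI.above K L S) (c : Lˣ)
    (hc : w.valuation L (c : L) = WithZero.exp (-1 : ℤ))
    (hc' : ∀ w' : FI.Pl L, w' ∉ FI.above K L S → w' ≠ w → w'.valuation L (c : L) = 1) :
    ((w.under (𝓞 K)).valuation K (FI.normU K L c : K) =
      if ((w.under (𝓞 K)).asIdeal.primesOver (𝓞 L)).ncard = 1 then WithZero.exp (-(p : ℤ))
      else WithZero.exp (-1 : ℤ)) ∧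
    ∀ v' : FI.Pl K, v' ∉ S → v' ≠ w.under (𝓞 K) → v'.valuation K (FI.normU K L c : K) = 1 := sorry

/-- AB-5b (file InertVal.lean). At an inert place outside `S` local norms have valuation
divisible by `p`. -/
theorem val_of_mem_nrm_of_nonsplit (hp : p.Prime) (D : SI.LocData p K) (b : Kˣ)
    (hc : CompatWith p K D L b) (v : SI.Pl K) (hv : ¬ SI.Over p K v) (hb : b ∈ SI.Uv K v)
    (hns : (v.asIdeal.primesOver (𝓞 L)).ncard = 1) (g : Kˣ) (hg : g ∈ D.nrm b v) :
    ∃ y : Kˣ, v.valuation K (g : K) = v.valuation K (y : K) ^ p := sorry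

/-- AB-6 (file GamS.lean). If `Cl_S(L) = 1`, elements that are local norms outside `S` are
`S`-units times global norms. -/
theorem exists_mul_norm_of_mem_GamS (hp : p.Prime) (hdeg : Module.finrank K L = p)
    (D : SI.LocData p K) (b : Kˣ) (β : L) (hβ : β ^ p = algebraMap K L (b : K))
    (hb : ∀ z : Kˣ, z ^ p ≠ b)
    (hc : CompatWith p K D L b) (S : Finset (SI.Pl K))
    (hpS : ∀ v : SI.Pl K, SI.Over p K v → v ∈ S) (hbS : b ∈ SI.KS K S)
    (hClL : FI.ClassGen L (FI.above K L (S : Set (FI.Pl K))))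
    (g : Kˣ) (hg : g ∈ SI.GamS p K D b S) :
    ∃ (k : Kˣ) (z : Lˣ), k ∈ SI.KS K S ∧ g = k * FI.normU K L z := sorry

/-- AB-7 (file GoodS.lean). -/
theorem exists_good_S (S₀ : Finset (SI.Pl K)) :
    ∃ S : Finset (SI.Pl K), S₀ ⊆ S ∧ SI.ClTriv K S ∧
      FI.ClassGen L (FI.above K L (S : Set (FI.Pl K))) := sorry

/-- AB-8 (file HNTUnits.lean). Hasse norm theorem for `S`-units, `S` good. -/
theorem mem_normImage_of_forall_mem_nrm (hp : p.Prime) (hp2 : p ≠ 2) (hT : FI.TateLemma.{u} p)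
    {ζ : K} (hζ : IsPrimitiveRoot ζ p) (hdeg : Module.finrank K L = p)
    (σ : L ≃ₐ[K] L) (hσ : ∀ τ : L ≃ₐ[K] L, τ ∈ Subgroup.zpowers σ)
    (D : SI.LocData p K) (hD : Compat p K D) (hU : SI.SUnitIndex p K)
    (b : Kˣ) (β : L) (hβ : β ^ p = algebraMap K L (b : K))
    (hb : ∀ z : Kˣ, z ^ p ≠ b)
    (S : Finset (SI.Pl K)) (hpS : ∀ v : SI.Pl K, SI.Over p K v → v ∈ S) (hbS : b ∈ SI.KS K S)
    (hCl : SI.ClTriv K S) (hClL : FI.ClassGen L (FI.above K L (S : Set (FI.Pl K))))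
    (x : Kˣ) (hxS : x ∈ SI.KS K S) (hx : ∀ v ∈ S, x ∈ D.nrm b v) :
    x ∈ FI.normImage K L (S : Set (FI.Pl K)) := sorry

/-- AB-9 (file HNT.lean). **Hasse norm theorem** for Kummer extensions of degree `p`
(abstract local data). -/
theorem hasse_norm (hp : p.Prime) (hp2 : p ≠ 2) (hT : FI.TateLemma.{u} p)
    {ζ : K} (hζ : IsPrimitiveRoot ζ p) (hdeg : Module.finrank K L = p)
    (D : SI.LocData p K) (hD : Compat p K D) (hU : SI.SUnitIndex p K)
    (b : Kˣ) (β : L) (hβ : β ^ p = algebraMap K L (b : K))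
    (hb : ∀ z : Kˣ, z ^ p ≠ b)
    (x : Kˣ) (hx : ∀ v : SI.Pl K, x ∈ D.nrm b v) :
    ∃ z : Lˣ, FI.normU K L z = x := sorry

end L

end Fermat.Agent.S55.NIT.Abs.WIP
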