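/-
S55 / NIT / Abs : SKELETON, part 2 (exports N1 and N5 in abstract form).
WIP file (contains `sorry`): never import it from a landed file.  Each node `AB-x` is a task; the
owner proves it in `Fermat/Agent/S55/NIT/Abs/<Name>.lean` with EXACTLY this statement.
-/
import Fermat.Agent.S55.NIT.Abs.Defs

set_option autoImplicit false

namespace Fermat.Agent.S55.NIT.Abs.WIP

open IsDedekindDomain NumberField Fermat.Agent.S55.NIT Fermat.Agent.S55.NIT.Abs

universe u

variable {p : ℕ} {K : Type u} [Field K] [NumberField K]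

/-- AB-10a (file IndexMono.lean). Pure group theory: for `T ⊆ S` the map `C_T → C_S` (extension
by `1`) is injective, `C_T = (∏_{v∈T} Kˣ/H v) / img (⨅_{v∉T} H v)`; hence the index for `T` divides
the index for `S`. -/
theorem index_img_dvd_of_subset (H : SI.Pl K → Subgroup Kˣ) (T S : Finset (SI.Pl K)) (hTS : T ⊆ S)
    (hfin : ∀ v ∈ S, (H v).index ≠ 0) :
    (SI.img K H T (⨅ v : {v : SI.Pl K // v ∉ T}, H v)).index ∣
      (SI.img K H S (⨅ v : {v : SI.Pl K // v ∉ S}, H v)).index := sorry

/-- AB-10 (file IndexAll.lean). **Second inequality (N1)** for every finite set of places `T`. -/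
theorem index_img_GamS_dvd (hp : p.Prime) (hp2 : p ≠ 2) (hT : FI.TateLemma.{u} p)
    {ζ : K} (hζ : IsPrimitiveRoot ζ p) (D : SI.LocData p K) (hD : Compat p K D)
    (hU : SI.SUnitIndex p K) (b : Kˣ) (hb : ∀ z : Kˣ, z ^ p ≠ b) (T : Finset (SI.Pl K)) :
    (SI.img K (D.nrm b) T (SI.GamS p K D b T)).index ∣ p := sorry

/-- AB-11 (file Nonsplit.lean). **N5**: a Galois extension of prime degree has nonsplit places
outside every finite set. -/
theorem exists_nonsplit {L : Type u} [Field L] [NumberField L] [Algebra K L] [IsGalois K L]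
    (hp : p.Prime) (hdeg : Module.finrank K L = p) (T₀ : Finset (SI.Pl K)) :
    ∃ v : SI.Pl K, v ∉ T₀ ∧ (v.asIdeal.primesOver (𝓞 L)).ncard = 1 := sorry

end Fermat.Agent.S55.NIT.Abs.WIP
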